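import Fermat.Agent.Root.SummaryTateHomNumberFieldAll

/-!
# The ratio character of two dihedral representations

For representations commuting on `H` and anticommuting off `H` with matrices `X`, `X'` of square
`u² ≠ 0`, with equal determinants and equal traces of `n`th powers on `H`, the ratio of
eigencharacters on `H` is a character `ε` with `εⁿ = 1`, inverted by conjugation outside `H`.
-/

set_option autoImplicit false
set_option linter.style.haveILetI false

noncomputable section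

open Matrix

local notation "M2" => Matrix (Fin 2) (Fin 2)

namespace FA.ExceptionalUnits

variable {k : Type*} [Field k] [CharZero k]

/-- The eigenvalue of a matrix commuting with `X` on the eigenspace of `X` for `u`. -/
def ev (X : M2 k) (u : k) (A : M2 k) : k := (A.trace + (A * X).trace / u) / 2

variable {X : M2 k} {u : k}

omit [CharZero k] in
/-- `X` has no trace. -/
theorem trace_zero_of_sq (hXX : X * X = (u * u) • 1) (hX : ∀ a : k, X ≠ a • 1) :
    X.trace = 0 := by
  by_contra h0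
  refine hX (X.trace⁻¹ * (u * u + X.det)) ?_
  have e : X.trace • X = (u * u + X.det) • (1 : M2 k) := by
    rw [add_smul, ← hXX, FA.LocalDef.mul_self_two]
    module
  rw [mul_smul, ← e, smul_smul, inv_mul_cancel₀ h0, one_smul]

/-- Its values on the centraliser. -/
theorem ev_eq (_hu : u ≠ 0) (hXX : X * X = (u * u) • 1) (hX : ∀ a : k, X ≠ a • 1) (t c : k) :
    ev X u (t • X + c • 1) = c + t * u := by
  rw [ev, add_mul, smul_mul_assoc, smul_mul_assoc, one_mul, hXX, trace_add, trace_add, trace_smul,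
    trace_smul, trace_smul, trace_smul, trace_zero_of_sq hXX hX, trace_smul, trace_one,
    Fintype.card_fin]
  simp [trace_zero_of_sq hXX hX]
  field_simp

theorem ev_one (hXX : X * X = (u * u) • 1) (hX : ∀ a : k, X ≠ a • 1) : ev X u 1 = 1 := by
  rw [ev, one_mul, trace_zero_of_sq hXX hX, trace_one, Fintype.card_fin]
  simp

/-- It is multiplicative there. -/
theorem ev_mul (hu : u ≠ 0) (hXX : X * X = (u * u) • 1) (hX : ∀ a : k, X ≠ a • 1) {A B : M2 k}
    (hA : A * X = X * A) (hB : B * X = X * B) : ev X u (A * B) = ev X u A * ev X u B := by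
  obtain ⟨t, c, rfl⟩ := FA.Exceptional.exists_eq_add_of_commute hX hA
  obtain ⟨s, e, rfl⟩ := FA.Exceptional.exists_eq_add_of_commute hX hB
  have h : (t • X + c • (1 : M2 k)) * (s • X + e • 1) =
      (t * e + c * s) • X + (t * s * (u * u) + c * e) • 1 := by
    simp only [add_mul, mul_add, smul_mul_smul_comm, one_mul, mul_one, hXX, smul_smul]
    module
  rw [h, ev_eq hu hXX hX, ev_eq hu hXX hX, ev_eq hu hXX hX]
  ring

/-- Trace and determinant. -/
theorem ev_add_mul (hu : u ≠ 0) (hXX : X * X = (u * u) • 1) (hX : ∀ a : k, X ≠ a • 1) {A : M2 k}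
    (hA : A * X = X * A) :
    ev X u A + ev X (-u) A = A.trace ∧ ev X u A * ev X (-u) A = A.det := by
  obtain ⟨t, c, rfl⟩ := FA.Exceptional.exists_eq_add_of_commute hX hA
  have hXX' : X * X = (-u * -u) • 1 := by rw [neg_mul_neg, hXX]
  rw [ev_eq hu hXX hX, ev_eq (neg_ne_zero.mpr hu) hXX' hX]
  have h0 := trace_zero_of_sq hXX hX
  have hd : X.det = -(u * u) := by
    have h := congrFun (congrFun hXX 0) 0
    rw [trace_fin_two] at h0
    simp [Matrix.mul_apply, Fin.sum_univ_two] at h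
    rw [det_fin_two]
    linear_combination (X 0 0) * h0 - h
  refine ⟨?_, ?_⟩
  · rw [trace_add, trace_smul, trace_smul, h0, trace_one, Fintype.card_fin]
    simp
    ring
  · rw [trace_fin_two] at h0
    rw [det_fin_two] at hd
    simp [det_fin_two]
    linear_combination -(t ^ 2) * hd - t * c * h0

omit [CharZero k] in
/-- Conjugation by a matrix anticommuting with `X` exchanges the two eigenvalues. -/
theorem ev_conj {A T T' : M2 k} (hT : T * X = -(X * T)) (hT' : T' * T = 1) :
    ev X u (T * A * T') = ev X (-u) A := by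
  have e : (T' * X * T) = -X := by
    rw [mul_assoc, show X * T = -(T * X) by rw [hT, neg_neg], mul_neg, ← mul_assoc, hT', one_mul]
  rw [ev, ev, trace_mul_comm, ← mul_assoc, hT', one_mul]
  rw [show (T * A * T' * X).trace = (A * (T' * X * T)).trace by
    rw [mul_assoc T A, mul_assoc T, trace_mul_comm]; simp only [mul_assoc], e, mul_neg, trace_neg,
    div_neg, neg_div]

omit [CharZero k] in
/-- Two pairs with the same sum and product. -/
theorem eq_or_eq_of_add_mul {a a' b b' : k} (hs : a + a' = b + b') (hp : a * a' = b * b') :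
    a = b ∨ a = b' := by
  have h : (a - b) * (a - b') = 0 := by linear_combination a * hs - hp
  exact (mul_eq_zero.mp h).imp sub_eq_zero.mp sub_eq_zero.mp

variable {G : Type*} [Group G]

/-- **The ratio character.** -/
theorem exists_ratio {n : ℕ} (r r' : G →* M2 k) {H : Subgroup G} (hu : u ≠ 0)
    {X' : M2 k} (hXX : X * X = (u * u) • 1) (hX : ∀ a : k, X ≠ a • 1)
    (hXX' : X' * X' = (u * u) • 1) (hX' : ∀ a : k, X' ≠ a • 1)
    (hc : ∀ g ∈ H, r g * X = X * r g) (hc' : ∀ g ∈ H, r' g * X' = X' * r' g)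
    (ha : ∀ g ∉ H, r g * X = -(X * r g)) (ha' : ∀ g ∉ H, r' g * X' = -(X' * r' g))
    (hdet : ∀ g, (r' g).det = (r g).det)
    (htr : ∀ g ∈ H, (r' g ^ n).trace = (r g ^ n).trace) :
    ∃ ε : G → k, (∀ g ∈ H, ε g ^ n = 1 ∧ ε g ≠ 0) ∧ (∀ g ∈ H, ∀ h ∈ H, ε (g * h) = ε g * ε h) ∧
      (∀ g ∈ H, (r' g).trace = ε g * ev X u (r g) + (ε g)⁻¹ * ev X (-u) (r g)) ∧
      ∀ τ ∉ H, ∀ g ∈ H, ε (τ * g * τ⁻¹) = (ε g)⁻¹ := by
  have hu' : -u ≠ 0 := neg_ne_zero.mpr hu
  have hneg : ∀ {Z : M2 k}, Z * Z = (u * u) • 1 → Z * Z = (-u * -u) • 1 := fun h => by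
    rw [neg_mul_neg, h]
  have hpow : ∀ {Z A : M2 k} {w : k}, w ≠ 0 → Z * Z = (w * w) • 1 → (∀ a : k, Z ≠ a • 1) →
      A * Z = Z * A → ∀ m : ℕ, ev Z w (A ^ m) = ev Z w A ^ m := fun {Z A w} hw hZZ hZ hA m => by
    induction m with
    | zero => rw [pow_zero, pow_zero, ev_one hZZ hZ]
    | succ m ih =>
      rw [pow_succ, pow_succ, ev_mul hw hZZ hZ (Commute.pow_left hA m).eq hA, ih]
  have hd0 : ∀ g, (r g).det ≠ 0 := fun g =>
    ((Matrix.isUnit_iff_isUnit_det _).mp ((Group.isUnit g).map r)).ne_zero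
  -- the sign of `u` matching the characters
  obtain ⟨v, hv, hvv, hall⟩ : ∃ v : k, v ≠ 0 ∧ v * v = u * u ∧
      ∀ g ∈ H, ev X' v (r' g) ^ n = ev X u (r g) ^ n := by
    have hor : ∀ g ∈ H, ev X' u (r' g) ^ n = ev X u (r g) ^ n ∨
        ev X' u (r' g) ^ n = ev X (-u) (r g) ^ n := fun g hg => by
      have h1 := ev_add_mul hu hXX hX (Commute.pow_left (hc g hg) n).eq
      have h2 := ev_add_mul hu hXX' hX' (Commute.pow_left (hc' g hg) n).eq
      rw [hpow hu hXX hX (hc g hg) n, hpow hu' (hneg hXX) hX (hc g hg) n] at h1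
      rw [hpow hu hXX' hX' (hc' g hg) n, hpow hu' (hneg hXX') hX' (hc' g hg) n, htr g hg, det_pow,
        hdet, ← det_pow] at h2
      exact eq_or_eq_of_add_mul (h2.1.trans h1.1.symm) (h2.2.trans h1.2.symm)
    by_cases hall : ∀ g ∈ H, ev X' u (r' g) ^ n = ev X u (r g) ^ n
    · exact ⟨u, hu, rfl, hall⟩
    push Not at hall
    obtain ⟨a, haH, hna⟩ := hall
    refine ⟨-u, hu', neg_mul_neg u u, fun g hg => ?_⟩
    have hmul : ∀ (s : G →* M2 k) {Z : M2 k} (w : k), w ≠ 0 → Z * Z = (w * w) • 1 →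
        (∀ a : k, Z ≠ a • 1) → (∀ g ∈ H, s g * Z = Z * s g) →
        ev Z w (s (a * g)) ^ n = ev Z w (s a) ^ n * ev Z w (s g) ^ n :=
      fun s {Z} w hw hZZ hZ hcs => by
        rw [map_mul, ev_mul hw hZZ hZ (hcs a haH) (hcs g hg), mul_pow]
    have ea := (hor a haH).resolve_left hna
    have key : ev X' u (r' g) ^ n = ev X (-u) (r g) ^ n := by
      by_contra hng
      have eg := (hor g hg).resolve_right hng
      rcases hor (a * g) (H.mul_mem haH hg) with e | e
      · rw [hmul r' u hu hXX' hX' hc', hmul r u hu hXX hX hc, eg] at e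
        refine hna (mul_right_cancel₀ (pow_ne_zero n fun e0 => hd0 g ?_) e)
        rw [← (ev_add_mul hu hXX hX (hc g hg)).2, e0, zero_mul]
      · rw [hmul r' u hu hXX' hX' hc', hmul r (-u) hu' (hneg hXX) hX hc, ea] at e
        refine hng (mul_left_cancel₀ (pow_ne_zero n fun e0 => hd0 a ?_) e)
        rw [← (ev_add_mul hu hXX hX (hc a haH)).2, e0, mul_zero]
    have h1 := ev_add_mul hu hXX hX (hc g hg)
    have h2 := ev_add_mul hu hXX' hX' (hc' g hg)
    rw [hdet, ← h1.2] at h2
    have e := congrArg (· ^ n) h2.2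
    simp only [mul_pow, key, mul_comm (ev X u (r g) ^ n)] at e
    refine mul_left_cancel₀ (pow_ne_zero n fun e0 => hd0 g ?_) e
    rw [← h1.2, e0, mul_zero]
  have hZv : X' * X' = (v * v) • 1 := by rw [hvv, hXX']
  have hne : ∀ g ∈ H, ev X u (r g) ≠ 0 ∧ ev X (-u) (r g) ≠ 0 := fun g hg =>
    ne_zero_and_ne_zero_of_mul (by rw [(ev_add_mul hu hXX hX (hc g hg)).2]; exact hd0 g)
  have hne' : ∀ g ∈ H, ev X' v (r' g) ≠ 0 := fun g hg => left_ne_zero_of_mul (by
    rw [(ev_add_mul hv hZv hX' (hc' g hg)).2, hdet]; exact hd0 g)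
  refine ⟨fun g => ev X' v (r' g) / ev X u (r g), fun g hg => ⟨?_, ?_⟩, fun g hg h hh => ?_,
    fun g hg => ?_, fun τ hτ g hg => ?_⟩
  · rw [div_pow, hall g hg, div_self (pow_ne_zero n (hne g hg).1)]
  · exact div_ne_zero (hne' g hg) (hne g hg).1
  · show _ / _ = _ / _ * (_ / _)
    rw [map_mul, map_mul, ev_mul hv hZv hX' (hc' g hg) (hc' h hh),
      ev_mul hu hXX hX (hc g hg) (hc h hh), mul_div_mul_comm]
  · have h1 := ev_add_mul hu hXX hX (hc g hg)
    have h2 := ev_add_mul hv hZv hX' (hc' g hg)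
    rw [hdet, ← h1.2] at h2
    have hη := hne' g hg
    have hχ := (hne g hg).1
    rw [← h2.1]
    show _ = _ / _ * _ + (_ / _)⁻¹ * _
    field_simp
    linear_combination h2.2
  · show _ / _ = (_ / _)⁻¹
    rw [inv_div, map_mul, map_mul, map_mul, map_mul,
      ev_conj (ha' τ hτ) (by rw [← map_mul, inv_mul_cancel, map_one]),
      ev_conj (ha τ hτ) (by rw [← map_mul, inv_mul_cancel, map_one])]
    have h1 := (ev_add_mul hu hXX hX (hc g hg)).2
    have h2 := (ev_add_mul hv hZv hX' (hc' g hg)).2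
    rw [hdet, ← h1] at h2
    rw [div_eq_div_iff (hne g hg).2 (hne' g hg)]
    linear_combination h2

end FA.ExceptionalUnits

end
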