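import Fermat.Agent.Root.SummaryAlmostAllSurjective
import Fermat.Agent.RT.Tate.Good

/-!
# Scalings of short Weierstrass curves on Tate modules

`(X, Y) ↦ (u² X, u³ Y)` maps the points of `y² = x³ + A x + B` to those of
`y² = x³ + u⁴ A x + u⁶ B`;
it is twisted by Galois as `u` is. Homomorphisms of the groups of points have matrices on the Tate
modules, and these compose.
-/

set_option autoImplicit false
set_option linter.style.haveILetI false

noncomputable section

open Matrix WeierstrassCurve WeierstrassCurve.Affine FA.EC FA.Frob FA.RT FA.RT.Tate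
open FA.AlmostAll (shortInt)
open scoped WeierstrassCurve.Affine

local notation "Qb" => AlgebraicClosure ℚ
local notation "GQ" => AlgebraicClosure ℚ ≃ₐ[ℚ] AlgebraicClosure ℚ
local notation "M2" => Matrix (Fin 2) (Fin 2)

namespace FA.ExceptionalUnits

section HomMatrix

variable {p : ℕ} [hp : Fact p.Prime] {W W' W'' : WeierstrassCurve ℤ} [(ratCurve W).IsElliptic]
  [(ratCurve W').IsElliptic] [(ratCurve W'').IsElliptic]

/-- The matrix of a homomorphism of points on the Tate modules. -/
def IsMat (B : TateBasis p W) (B' : TateBasis p W') (f : Pts W →+ Pts W') (M : M2 ℤ_[p]) : Prop :=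
  ∀ n v, f (B.φ n v) = B'.φ n (M *ᵥ v)

/-- There is one. -/
theorem exists_isMat (B : TateBasis p W) (B' : TateBasis p W') (f : Pts W →+ Pts W') :
    ∃ M, IsMat B B' f M := by
  choose c hc using fun j : Fin 2 => B'.exists_vec (x := fun n => f (B.φ n (Pi.single j 1)))
    (fun n => by rw [← map_nsmul, B.nsmul_phi, map_zero])
    (fun n => by rw [← map_nsmul, B.compat])
  refine ⟨Matrix.of fun i j => c j i, fun n v => ?_⟩
  have : NeZero (p ^ n) := ⟨pow_ne_zero _ hp.out.ne_zero⟩
  let k : Fin 2 → ℕ := fun i => (PadicInt.toZModPow n (v i)).val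
  let v' : Fin 2 → ℤ_[p] := fun i => (k i : ℤ_[p])
  have hk : ∀ i, PadicInt.toZModPow n (v i) = PadicInt.toZModPow n (v' i) := fun i => by
    show _ = PadicInt.toZModPow n (k i : ℤ_[p])
    rw [map_natCast, ZMod.natCast_zmod_val]
  have hv' : v' = k 0 • Pi.single 0 1 + k 1 • Pi.single 1 1 := by
    funext i
    fin_cases i <;> simp [v', nsmul_eq_mul]
  rw [B.phi_eq_iff.mpr hk, B'.phi_mulVec_congr _ (B'.phi_eq_iff.mpr hk), hv', mulVec_add,
    mulVec_smul, mulVec_smul, mulVec_single_one, mulVec_single_one, map_add, map_nsmul, map_nsmul,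
    map_add, map_nsmul, map_nsmul, map_add, map_nsmul, map_nsmul, ← hc, ← hc]
  rfl

/-- Matrices compose. -/
theorem IsMat.comp {B : TateBasis p W} {B' : TateBasis p W'} {B'' : TateBasis p W''}
    {f : Pts W →+ Pts W'} {g : Pts W' →+ Pts W''} {M N : M2 ℤ_[p]} (hf : IsMat B B' f M)
    (hg : IsMat B' B'' g N) : IsMat B B'' (g.comp f) (N * M) := fun n v => by
  rw [AddMonoidHom.comp_apply, hf, hg, mulVec_mulVec]

/-- They are unique. -/
theorem IsMat.unique {B : TateBasis p W} {B' : TateBasis p W'} {f : Pts W →+ Pts W'}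
    {M M' : M2 ℤ_[p]} (h : IsMat B B' f M) (h' : IsMat B B' f M') : M = M' :=
  B'.ext_phi fun n v => (h n v).symm.trans (h' n v)

/-- The action of Galois. -/
def galHom (W : WeierstrassCurve ℤ) [(ratCurve W).IsElliptic] (σ : GQ) : Pts W →+ Pts W where
  toFun x := σ • x
  map_zero' := FA.Local.gal_smul_zero _ σ
  map_add' x y := FA.Local.gal_smul_add _ σ x y

/-- Its matrix. -/
theorem isMat_gal (B : TateBasis p W) (σ : GQ) : IsMat B B (galHom W σ) (B.rep σ) :=
  fun n v => B.rep_spec σ n v

end HomMatrix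

section Scale

variable {A A' A'' : ℤ × ℤ} [(ratCurve (shortInt A)).IsElliptic]
  [(ratCurve (shortInt A')).IsElliptic] [(ratCurve (shortInt A'')).IsElliptic]

/-- `u` carries the equation of `A` to that of `A'`. -/
def Scales (A A' : ℤ × ℤ) (u : Qbˣ) : Prop :=
  (A'.1 : Qb) = (u : Qb) ^ 4 * A.1 ∧ (A'.2 : Qb) = (u : Qb) ^ 6 * A.2

omit [(ratCurve (shortInt A)).IsElliptic] [(ratCurve (shortInt A')).IsElliptic] in
theorem scales_vc {u : Qbˣ} (h : Scales A A' u) :
    (⟨u, 0, 0, 0⟩ : VariableChange Qb) • ((ratCurve (shortInt A'))⁄Qb) =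
      ((ratCurve (shortInt A))⁄Qb) := by
  have hu : (u : Qb) ≠ 0 := u.ne_zero
  ext <;> simp only [ratCurve, WeierstrassCurve.baseChange, variableChange_a₁, variableChange_a₂,
    variableChange_a₃, variableChange_a₄, variableChange_a₆, map_a₁, map_a₂, map_a₃, map_a₄,
    map_a₆, map_zero, eq_intCast, eq_ratCast, Rat.cast_intCast, Units.val_inv_eq_inv_val]
  all_goals simp
  · rw [h.1]; field_simp
  · rw [h.2]; field_simp

/-- The scaling by `u`. -/
def scale {u : Qbˣ} (h : Scales A A' u) : Pts (shortInt A) →+ Pts (shortInt A') :=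
  (vcEquiv (⟨u, 0, 0, 0⟩ : VariableChange Qb) (scales_vc h)).toAddMonoidHom

theorem scale_some {u : Qbˣ} (h : Scales A A' u) {x y : Qb}
    (hxy : ((ratCurve (shortInt A))⁄Qb).toAffine.Nonsingular x y) :
    ∃ hxy', scale h (.some x y hxy) = .some ((u : Qb) ^ 2 * x) ((u : Qb) ^ 3 * y) hxy' := by
  refine ⟨?_, (vcEquiv_some _ (scales_vc h) hxy).trans ?_⟩
  swap
  · simp [vcX, vcY]
  · have := equation_iff_nonsingular.mp ((equation_vc _ (scales_vc h) x y).mpr hxy.1)
    simpa [vcX, vcY] using this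

/-- Scalings compose. -/
theorem scale_comp {u v w : Qbˣ} (hu : Scales A A' u) (hv : Scales A' A'' v)
    (hw : Scales A A'' w) (e : w = v * u) : (scale hv).comp (scale hu) = scale hw := by
  subst e
  refine AddMonoidHom.ext fun P => ?_
  rcases P with _ | ⟨x, y, hxy⟩
  · exact map_zero ((scale hv).comp (scale hu)) |>.trans (map_zero (scale hw)).symm
  obtain ⟨h1, e1⟩ := scale_some hu hxy
  obtain ⟨h2, e2⟩ := scale_some hv h1
  obtain ⟨h3, e3⟩ := scale_some hw hxy
  rw [AddMonoidHom.comp_apply, e1, e2, e3]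
  simp only [Affine.Point.some.injEq, Units.val_mul]
  constructor <;> ring

/-- Galois moves the scaling by `u` to that by `σ u`. -/
theorem scale_gal {u v : Qbˣ} (hu : Scales A A' u) (hv : Scales A A' v) (σ : GQ)
    (e : (v : Qb) = σ u) :
    (galHom (shortInt A') σ).comp (scale hu) = (scale hv).comp (galHom (shortInt A) σ) := by
  refine AddMonoidHom.ext fun P => ?_
  rcases P with _ | ⟨x, y, hxy⟩
  · exact map_zero ((galHom (shortInt A') σ).comp (scale hu)) |>.trans
      (map_zero ((scale hv).comp (galHom (shortInt A) σ))).symm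
  obtain ⟨h1, e1⟩ := scale_some hu hxy
  rw [AddMonoidHom.comp_apply, AddMonoidHom.comp_apply, e1]
  show Affine.Point.some (σ _) (σ _) _ = scale hv (Affine.Point.some (σ x) (σ y) _)
  obtain ⟨h2, e2⟩ := scale_some hv (x := σ x) (y := σ y) _
  rw [e2]
  simp [e]

end Scale

end FA.ExceptionalUnits

end
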