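import Fermat.Agent.ExceptionalUnits.Units

/-!
# Roots of unity near one

If `χ` and `e χ` are roots of quadratics congruent to `(x - 1)²` modulo `5`, then `(e - 1)⁴` is
`5` times something integral; for an `n`th root of unity of `ℚ(i)` or `ℚ(√-3)` this forces `e = 1`.
-/

set_option autoImplicit false
set_option linter.style.haveILetI false

noncomputable section

open Matrix WeierstrassCurve

namespace FA.ExceptionalUnits

local notation "k₅" => AlgebraicClosure ℚ_[5]
local notation "κ₅" => algebraMap ℤ_[5] k₅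

variable [Fact (Nat.Prime 5)]

/-- A root of a monic quadratic is integral. -/
theorem isIntegral_of_quadratic {b c : ℤ_[5]} {x : k₅} (h : x * x - κ₅ b * x + κ₅ c = 0) :
    IsIntegral ℤ_[5] x := by
  refine ⟨Polynomial.X ^ 2 - Polynomial.C b * Polynomial.X + Polynomial.C c, by monicity!, ?_⟩
  simp only [Polynomial.eval₂_add, Polynomial.eval₂_sub, Polynomial.eval₂_mul,
    Polynomial.eval₂_X, Polynomial.eval₂_C, sq]
  exact h

/-- The small integers are no multiples of five. -/
theorem not_integral_div {j : ℤ} (h1 : 1 ≤ j) (h4 : j ≤ 4) {I : k₅} (hI : IsIntegral ℤ_[5] I) :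
    ((j : k₅)) ^ 4 ≠ 5 * I := fun h => by
  have hI' : I = algebraMap ℚ_[5] k₅ ((j : ℚ_[5]) ^ 4 / 5) := by
    rw [map_div₀, map_pow, map_intCast, map_ofNat, h,
      mul_div_cancel_left₀ _ (by norm_num : (5 : k₅) ≠ 0)]
  rw [hI', isIntegral_algebraMap_iff (algebraMap ℚ_[5] k₅).injective] at hI
  obtain ⟨w, hw⟩ := IsIntegrallyClosed.isIntegral_iff.mp hI
  have e : ((5 : ℕ) : ℤ_[5]) * w = (j : ℤ_[5]) ^ 4 := by
    refine (IsFractionRing.injective ℤ_[5] ℚ_[5]) ?_
    rw [map_mul, map_natCast, hw, map_pow, map_intCast]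
    push_cast
    field_simp
  have e' := congrArg PadicInt.toZMod e
  rw [map_mul, map_natCast, ZMod.natCast_self, zero_mul, map_pow, map_intCast, eq_comm] at e'
  have := (ZMod.intCast_zmod_eq_zero_iff_dvd j 5).mp ((pow_eq_zero_iff (by norm_num)).mp e')
  omega

/-- **No root of unity but one is near one.** -/
theorem eq_one_of_near {d : ℤ} {n : ℕ} {t a : ℤ} (U : UnitField d n t a) {e χ : k₅}
    (he : e ^ n = 1) {y z y' z' : ℤ_[5]}
    (h : χ * χ - κ₅ (2 + 5 * y) * χ + κ₅ (1 + 5 * z) = 0)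
    (h' : e * χ * (e * χ) - κ₅ (2 + 5 * y') * (e * χ) + κ₅ (1 + 5 * z') = 0) : e = 1 := by
  refine (U.far e he).resolve_right fun ⟨j, h1, h4, hj⟩ => ?_
  have he0 : e ≠ 0 := fun e0 => by
    rw [e0, zero_pow U.pos] at he
    exact zero_ne_one he
  have hχ := isIntegral_of_quadratic h
  have hη := isIntegral_of_quadratic h'
  have hei : IsIntegral ℤ_[5] e :=
    IsIntegral.of_pow (Nat.pos_of_ne_zero U.pos) (he ▸ isIntegral_one)
  have hei' : IsIntegral ℤ_[5] e⁻¹ :=
    IsIntegral.of_pow (Nat.pos_of_ne_zero U.pos)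
      (by rw [inv_pow, he, inv_one]; exact isIntegral_one)
  set α := χ - 1
  set β := e * χ - 1
  have hα : IsIntegral ℤ_[5] α := hχ.sub isIntegral_one
  have hβ : IsIntegral ℤ_[5] β := hη.sub isIntegral_one
  set P := κ₅ y * α - κ₅ z + κ₅ y
  set P' := κ₅ y' * β - κ₅ z' + κ₅ y'
  have hα2 : α * α = 5 * P := by
    simp only [α, P, map_add, map_mul, map_ofNat, map_one] at h ⊢
    linear_combination h
  have hβ2 : β * β = 5 * P' := by
    simp only [β, P', map_add, map_mul, map_ofNat, map_one] at h' ⊢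
    linear_combination h'
  have hP : IsIntegral ℤ_[5] P :=
    ((isIntegral_algebraMap.mul hα).sub isIntegral_algebraMap).add isIntegral_algebraMap
  have hP' : IsIntegral ℤ_[5] P' :=
    ((isIntegral_algebraMap.mul hβ).sub isIntegral_algebraMap).add isIntegral_algebraMap
  have hint : ∀ m : ℤ, IsIntegral ℤ_[5] (m : k₅) := fun m => by
    rw [← map_intCast κ₅]
    exact isIntegral_algebraMap
  set I := (P' * (β * β + (-4 : ℤ) * (e * (α * β)) + (6 : ℤ) * (e * e * (α * α))) +
    P * ((-4 : ℤ) * (e * e * e * (α * β)) + e * e * (e * e) * (α * α))) * (e⁻¹ - 1) ^ 4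
  have hI : IsIntegral ℤ_[5] I :=
    ((hP'.mul (((hβ.mul hβ).add ((hint _).mul (hei.mul (hα.mul hβ)))).add
      ((hint _).mul ((hei.mul hei).mul (hα.mul hα))))).add
    (hP.mul (((hint _).mul (((hei.mul hei).mul hei).mul (hα.mul hβ))).add
      (((hei.mul hei).mul (hei.mul hei)).mul (hα.mul hα))))).mul ((hei'.sub isIntegral_one).pow 4)
  refine not_integral_div h1 h4 hI ?_
  have hee : e * e⁻¹ = 1 := mul_inv_cancel₀ he0
  calc (j : k₅) ^ 4 = (2 - e - e⁻¹) ^ 4 := by rw [hj]
    _ = (e - 1) ^ 4 * (e⁻¹ - 1) ^ 4 := by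
      rw [← mul_pow]
      congr 1
      linear_combination -hee
    _ = 5 * I := by
      rw [show e - 1 = β - e * α by simp only [α, β]; ring]
      simp only [I]
      push_cast
      linear_combination (β * β + -4 * (e * (α * β)) + 6 * (e * e * (α * α))) *
        (e⁻¹ - 1) ^ 4 * hβ2 +
        (-4 * (e * e * e * (α * β)) + e * e * (e * e) * (α * α)) * (e⁻¹ - 1) ^ 4 * hα2

end FA.ExceptionalUnits

end
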