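import Fermat.Agent.EC.S51Aux
import Mathlib

/-!
# Cocycles of roots of unity come from radicals

A function on the absolute Galois group of `ℚ` with values in the `n`th roots of unity, constant
one on an open subgroup and satisfying the cocycle identity, is `g ↦ g x / x` for an `x` whose
`n`th power is a nonzero integer (Hilbert 90, by Dedekind's independence of the embeddings).
-/

set_option autoImplicit false
set_option linter.style.haveILetI false

noncomputable section

local notation "Qb" => AlgebraicClosure ℚ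
local notation "GQ" => AlgebraicClosure ℚ ≃ₐ[ℚ] AlgebraicClosure ℚ

namespace FA.ExceptionalUnits

/-- **Hilbert 90** for a cocycle trivial on an open subgroup. -/
theorem exists_fixing_factor (c : GQ → Qb) (hc0 : ∀ g, c g ≠ 0)
    (hmul : ∀ g h, c (g * h) = c g * g (c h)) {U : Subgroup GQ} (hU : IsOpen (U : Set GQ))
    (hU1 : ∀ u ∈ U, c u = 1) : ∃ x : Qb, x ≠ 0 ∧ ∀ g : GQ, g x = c g * x := by
  classical
  obtain ⟨L, hL, hLU⟩ := (krullTopology_mem_nhds_one_iff ℚ Qb (U : Set GQ)).mp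
    (hU.mem_nhds U.one_mem)
  haveI := hL
  haveI := FA.EC.isGalois_algebraicClosure
  have hlift : ∀ φ : L →ₐ[ℚ] Qb, ∃ g : GQ, ∀ y : L, g y = φ y := fun φ =>
    ⟨AlgEquiv.ofBijective (φ.liftNormal Qb) (Algebra.IsAlgebraic.algHom_bijective _),
      fun y => φ.liftNormal_commutes Qb y⟩
  choose lift hlift using hlift
  have hwd : ∀ {g g' : GQ}, (∀ y : L, g y = g' y) → c g = c g' := fun {g g'} h => by
    have hu : g⁻¹ * g' ∈ U := hLU ((IntermediateField.mem_fixingSubgroup_iff _ _).mpr fun y hy => by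
      show g.symm (g' y) = y
      rw [← h ⟨y, hy⟩]
      exact g.symm_apply_apply y)
    conv_rhs => rw [show g' = g * (g⁻¹ * g') by group, hmul, hU1 _ hu, map_one, mul_one]
  haveI : Fintype (L →ₐ[ℚ] Qb) := Fintype.ofFinite _
  obtain ⟨z, hz⟩ : ∃ z : L, ∑ φ : L →ₐ[ℚ] Qb, c (lift φ) * φ z ≠ 0 := by
    by_contra! h
    have hli := (linearIndependent_monoidHom L Qb).comp (fun φ : L →ₐ[ℚ] Qb => (φ : L →* Qb))
      fun φ ψ e => AlgHom.ext fun y => DFunLike.congr_fun e y
    have := Fintype.linearIndependent_iff.mp hli (fun φ => c (lift φ)) (funext fun y => by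
      simpa using h y) L.val
    exact hc0 _ this
  set x₀ := ∑ φ : L →ₐ[ℚ] Qb, c (lift φ) * φ z
  refine ⟨x₀⁻¹, inv_ne_zero hz, fun g => ?_⟩
  have key : c g * g x₀ = x₀ := by
    let e : (L →ₐ[ℚ] Qb) ≃ (L →ₐ[ℚ] Qb) :=
      { toFun := fun φ => g.toAlgHom.comp φ
        invFun := fun φ => g.symm.toAlgHom.comp φ
        left_inv := fun φ => AlgHom.ext fun y => g.symm_apply_apply (φ y)
        right_inv := fun φ => AlgHom.ext fun y => g.apply_symm_apply (φ y) }
    simp only [x₀, map_sum, Finset.mul_sum, map_mul]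
    rw [← Equiv.sum_comp e (fun φ => c (lift φ) * φ z)]
    refine Finset.sum_congr rfl fun φ _ => ?_
    rw [← mul_assoc, ← hmul, hwd (g' := g * lift φ) (g := lift (e φ)) fun y => by
      show _ = g (lift φ y)
      rw [hlift, hlift]
      rfl]
    rfl
  rw [map_inv₀, eq_comm]
  refine eq_inv_of_mul_eq_one_left ?_
  rw [mul_assoc, mul_comm x₀⁻¹, ← mul_assoc, key, mul_inv_cancel₀ hz]

/-- **Radicals**: the cocycle is that of an `n`th root of a nonzero integer. -/
theorem exists_radical {n : ℕ} (hn : n ≠ 0) (c : GQ → Qb) (hcn : ∀ g, c g ^ n = 1)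
    (hmul : ∀ g h, c (g * h) = c g * g (c h)) {U : Subgroup GQ} (hU : IsOpen (U : Set GQ))
    (hU1 : ∀ u ∈ U, c u = 1) :
    ∃ (D : ℤ) (x : Qb), D ≠ 0 ∧ x ^ n = (D : Qb) ∧ ∀ g : GQ, g x = c g * x := by
  obtain ⟨x, hx, hgx⟩ := exists_fixing_factor c (fun g h => by
    have := hcn g
    rw [h, zero_pow hn] at this
    exact zero_ne_one this) hmul hU hU1
  obtain ⟨r, hr⟩ := FA.EC.mem_range_of_fixed (x := x ^ n) fun g => by
    rw [map_pow, hgx, mul_pow, hcn, one_mul]
  obtain ⟨D, hD⟩ : ∃ D : ℤ, r * (r.den : ℚ) ^ n = D :=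
    ⟨r.num * (r.den : ℤ) ^ (n - 1), by
      obtain ⟨m, rfl⟩ := Nat.exists_eq_add_one_of_ne_zero hn
      push_cast
      rw [pow_succ', ← mul_assoc, Rat.mul_den_eq_num]⟩
  have hden : ((r.den : ℕ) : Qb) ≠ 0 := Nat.cast_ne_zero.mpr r.den_ne_zero
  refine ⟨D, x * (r.den : Qb), ?_, ?_, fun g => by rw [map_mul, hgx, map_natCast, mul_assoc]⟩
  · rintro rfl
    rw [Int.cast_zero, mul_eq_zero, or_iff_left (pow_ne_zero _
      (Nat.cast_ne_zero.mpr r.den_ne_zero))] at hD
    rw [hD, map_zero] at hr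
    exact pow_ne_zero n hx hr.symm
  · rw [mul_pow, ← hr, ← map_natCast (algebraMap ℚ Qb), ← map_pow, ← map_mul, hD, map_intCast]

end FA.ExceptionalUnits

end
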