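import Fermat.Agent.ExceptionalUnits.Near
import Fermat.Agent.ExceptionalUnits.Radical

/-!
# An exceptional curve of `ℚ(i)` or `ℚ(√-3)` has the traces of a twist of the base curve

The ratio `ε` of the eigencharacters on the automorphisms fixing `√d` extends to a cocycle of
roots of unity, so it is `g x / x` with `xⁿ = D`; the scaling by `x` makes the Tate module of the
twist by `D` that of the base curve with Galois multiplied by the matrix of `ζ ^ m`.
-/

set_option autoImplicit false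
set_option linter.style.haveILetI false

noncomputable section

open Matrix WeierstrassCurve WeierstrassCurve.Affine FA.EC FA.Frob FA.RT FA.RT.Tate
open FA.AlmostAll (shortInt)
open scoped WeierstrassCurve.Affine

local notation "Qb" => AlgebraicClosure ℚ
local notation "GQ" => AlgebraicClosure ℚ ≃ₐ[ℚ] AlgebraicClosure ℚ
local notation "M2" => Matrix (Fin 2) (Fin 2)

namespace FA.ExceptionalUnits

section Scale

variable {A A' : ℤ × ℤ} [(ratCurve (shortInt A)).IsElliptic] [(ratCurve (shortInt A')).IsElliptic]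
  {p : ℕ} [Fact p.Prime]

omit [Fact p.Prime] in
/-- The scaling depends only on the unit. -/
theorem scale_eq {u v : Qbˣ} (hu : Scales A A' u) (hv : Scales A A' v) (e : u = v) :
    scale hu = scale hv := by
  subst e; rfl

omit [Fact p.Prime] in
/-- The scaling by one. -/
theorem scale_one (h : Scales A A 1) : scale h = AddMonoidHom.id _ := by
  refine AddMonoidHom.ext fun P => ?_
  rcases P with _ | ⟨x, y, hxy⟩
  · exact map_zero (scale h)
  obtain ⟨h1, e1⟩ := scale_some h hxy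
  rw [e1, AddMonoidHom.id_apply]
  simp [Units.val_one]

omit [Fact p.Prime] in
/-- The scaling by minus one. -/
theorem scale_neg_one (h : Scales A A (-1)) : scale h = -AddMonoidHom.id _ := by
  refine AddMonoidHom.ext fun P => ?_
  rcases P with _ | ⟨x, y, hxy⟩
  · exact (map_zero (scale h)).trans (map_zero (-AddMonoidHom.id _)).symm
  obtain ⟨h1, e1⟩ := scale_some h hxy
  rw [e1, AddMonoidHom.neg_apply, AddMonoidHom.id_apply, Affine.Point.neg_some]
  simp only [Units.val_neg, Units.val_one, Affine.Point.some.injEq, Affine.negY]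
  simp [ratCurve, WeierstrassCurve.baseChange, show (-1 : Qb) ^ 3 = -1 by norm_num]

/-- The matrix of the identity. -/
theorem isMat_id (B : TateBasis p (shortInt A)) : IsMat B B (AddMonoidHom.id _) 1 := fun n v => by
  rw [AddMonoidHom.id_apply, one_mulVec]

/-- The matrix of minus the identity. -/
theorem isMat_neg_id (B : TateBasis p (shortInt A)) : IsMat B B (-AddMonoidHom.id _) (-1) :=
  fun n v => by rw [AddMonoidHom.neg_apply, AddMonoidHom.id_apply, neg_mulVec, one_mulVec, map_neg]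

variable {n : ℕ}

/-- Powers of a scaling. -/
theorem isMat_scale_pow (hself : ∀ z : Qbˣ, (z : Qb) ^ n = 1 → Scales A A z) {ζ : Qbˣ}
    (hζ : (ζ : Qb) ^ n = 1) (B : TateBasis p (shortInt A)) {J : M2 ℤ_[p]}
    (hJ : IsMat B B (scale (hself ζ hζ)) J) (m : ℕ) :
    IsMat B B (scale (hself (ζ ^ m) (by
      rw [Units.val_pow_eq_pow_val, ← pow_mul, mul_comm, pow_mul, hζ, one_pow]))) (J ^ m) := by
  induction m with
  | zero =>
    rw [scale_eq _ (hself 1 (by simp)) (pow_zero ζ), scale_one, pow_zero]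
    exact isMat_id B
  | succ m ih =>
    rw [← scale_comp _ (hself ζ hζ) _ (pow_succ' ζ m), pow_succ']
    exact ih.comp hJ

end Scale

section Main

open FA.CMStructure (IsExceptional)

local notation "k₅" => AlgebraicClosure ℚ_[5]
local notation "κ₅" => algebraMap ℤ_[5] k₅

variable {d : ℤ} {n : ℕ} {t a : ℤ}

/-- **The twist.** -/
theorem exists_twist_traces [Fact (Nat.Prime 5)] (U : UnitField d n t a) {A₀ : ℤ × ℤ}
    [(ratCurve (shortInt A₀)).IsElliptic] {W : WeierstrassCurve ℤ} [(ratCurve W).IsElliptic]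
    (hE₀ : IsExceptional (shortInt A₀) d) (hE : IsExceptional W d)
    (hself : ∀ z : Qbˣ, (z : Qb) ^ n = 1 → Scales A₀ A₀ z) (AD : ℤ → ℤ × ℤ)
    (hAD : ∀ D : ℤ, D ≠ 0 → (shortInt (AD D)).Δ ≠ 0 ∧
      ∀ x : Qbˣ, (x : Qb) ^ n = (D : Qb) → Scales A₀ (AD D) x ∧ Scales (AD D) A₀ x⁻¹)
    (hrel : ∀ (B : TateBasis 5 (shortInt A₀)) (ζ : Qbˣ) (h : Scales A₀ A₀ ζ) (J : M2 ℤ_[5]),
      IsPrimitiveRoot (ζ : Qb) n → IsMat B B (scale h) J → J ^ (n / 2) = -1 →
      ∀ T : M2 ℤ_[5], IsUnit T → T * J = J ^ (n - 1) * T →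
        J * J - (t : ℤ_[5]) • J + 1 = 0) :
    ∃ D : ℤ, D ≠ 0 ∧
      {q : ℕ | q.Prime ∧ W.apOfModel q ≠ (shortInt (AD D)).apOfModel q}.Finite := by
  classical
  have hd1 : d ≠ 1 := by have := U.neg; omega
  obtain ⟨s, H, hs, hH, hopen, hfix⟩ := FA.OpenImageAll.exists_index_two_of_sqrt U.sqfree hd1
  -- complex conjugation
  set τ := complexConjugation
  have hττ : τ * τ = 1 := complexConjugation_mul_self
  have hτ : τ ∉ H := fun hmem => by
    have h1 := complexEmbedding_complexConjugation s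
    rw [(hfix τ).mp hmem] at h1
    obtain ⟨r, hr⟩ := Complex.conj_eq_iff_real.mp h1.symm
    have h2 := congrArg complexEmbedding hs
    rw [map_pow, map_intCast, hr] at h2
    have h3 : r ^ 2 = (d : ℝ) := by exact_mod_cast h2
    have h4 : (d : ℝ) < 0 := by exact_mod_cast U.neg
    nlinarith [sq_nonneg r]
  -- the root of unity in `ℚ̄`
  set ζ₀ : Qb := ((t : Qb) + a * s) / 2
  have hdisc : ∀ (K : Type) [Field K] [CharZero K] (v : K), v * v = (d : K) →
      (((t : K) + a * v) / 2) ^ 2 - (t : K) * (((t : K) + a * v) / 2) + 1 = 0 :=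
    fun K _ _ v hv => by
      have h := congrArg (Int.cast : ℤ → K) U.disc
      push_cast at h
      linear_combination ((a : K) ^ 2 / 4) * hv - (1 / 4 : K) * h
  have hζprim : IsPrimitiveRoot ζ₀ n := U.root _ (hdisc Qb s (by rw [← sq, hs]))
  have hζ1 : ζ₀ ^ n = 1 := hζprim.pow_eq_one
  obtain ⟨h₂, hh₂⟩ := U.half
  have hn2 : 2 ≤ n := by have := U.pos; omega
  have hζne : ζ₀ ≠ 0 := hζprim.ne_zero U.pos
  set ζ : Qbˣ := Units.mk0 ζ₀ hζne
  have hζinv : (t : Qb) - ζ₀ = ζ₀ ^ (n - 1) := by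
    refine mul_left_cancel₀ hζne ?_
    rw [← pow_succ', Nat.sub_add_cancel (by omega), hζ1]
    linear_combination -(hdisc Qb s (by rw [← sq, hs]))
  have hgζ : ∀ g : GQ, (g ∈ H → g ζ₀ = ζ₀) ∧ (g ∉ H → g ζ₀ = ζ₀ ^ (n - 1)) := fun g => by
    refine ⟨fun hg => ?_, fun hg => ?_⟩
    · simp only [ζ₀, map_div₀, map_add, map_mul, map_intCast, map_ofNat, (hfix g).mp hg]
    · have hgs : g s = -s := (sq_eq_sq_iff_eq_or_eq_neg.mp
        (by rw [← map_pow, hs, map_intCast])).resolve_left fun e => hg ((hfix g).mpr e)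
      rw [← hζinv]
      simp only [ζ₀, map_div₀, map_add, map_mul, map_intCast, map_ofNat, hgs]
      ring
  -- the matrices
  obtain ⟨B₀⟩ := exists_tateBasis (p := 5) (shortInt A₀)
  obtain ⟨B⟩ := exists_tateBasis (p := 5) W
  obtain ⟨J, hJ⟩ := exists_isMat B₀ B₀ (scale (hself ζ hζ1))
  have hgJ : ∀ (g : GQ) (m : ℕ), g ζ₀ = ζ₀ ^ m → B₀.rep g * J = J ^ m * B₀.rep g := fun g m e => by
    have h := scale_gal (hself ζ hζ1) (hself (ζ ^ m)
      (by rw [Units.val_pow_eq_pow_val, ← pow_mul, mul_comm, pow_mul]; simp [ζ, hζ1]))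
      g (by simp [ζ, e])
    exact (hJ.comp (isMat_gal B₀ g)).unique
      (h ▸ (isMat_gal B₀ g).comp (isMat_scale_pow hself hζ1 B₀ hJ m))
  have hJn : J ^ n = 1 := by
    refine (isMat_scale_pow hself hζ1 B₀ hJ n).unique ?_
    rw [scale_eq _ (hself 1 (by simp)) (Units.ext (by simp [ζ, hζ1])), scale_one]
    exact isMat_id B₀
  have hJh : J ^ (n / 2) = -1 := by
    refine (isMat_scale_pow hself hζ1 B₀ hJ (n / 2)).unique ?_
    have e : ζ₀ ^ (n / 2) = -1 := by
      have hsq : ζ₀ ^ (n / 2) * ζ₀ ^ (n / 2) = 1 := by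
        rw [← pow_add, show n / 2 + n / 2 = n by omega, hζ1]
      exact (mul_self_eq_one_iff.mp hsq).resolve_left
        (hζprim.pow_ne_one_of_pos_of_lt (by omega) (by omega))
    rw [scale_eq _ (hself (-1) (by simp [hh₂, pow_mul])) (Units.ext (by simp [ζ, e])),
      scale_neg_one]
    exact isMat_neg_id B₀
  have hJJ := hrel B₀ ζ _ J hζprim hJ hJh (B₀.rep τ) ((Group.isUnit τ).map B₀.rep)
    (hgJ τ _ ((hgζ τ).2 hτ))
  have hJinv : J ^ (n - 1) = (t : ℤ_[5]) • 1 - J := by
    have h1 : J ^ (n - 1) * J = 1 := by rw [← pow_succ, Nat.sub_add_cancel (by omega), hJn]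
    have h2 : J * ((t : ℤ_[5]) • 1 - J) = 1 := by
      rw [mul_sub, mul_smul_comm, mul_one]
      linear_combination (norm := module) -hJJ
    exact left_inv_eq_right_inv h1 h2
  -- the representations over an algebraic closure
  let K₅ : M2 ℤ_[5] →+* M2 k₅ := (κ₅).mapMatrix
  let j : ℚ_[5] →+* k₅ := algebraMap _ _
  let r : GQ →* M2 k₅ := K₅.toMonoidHom.comp B₀.rep
  let r' : GQ →* M2 k₅ := K₅.toMonoidHom.comp B.rep
  have htd : ∀ C : M2 ℤ_[5], (K₅ C).trace = κ₅ C.trace ∧ (K₅ C).det = κ₅ C.det := fun C => by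
    simp [K₅, trace_fin_two, det_fin_two]
  obtain ⟨v, hv⟩ := IsAlgClosed.exists_pow_nat_eq (d : k₅) two_pos
  rw [sq] at hv
  set u : k₅ := (a : k₅) * v
  have hu : u ≠ 0 := mul_ne_zero (Int.cast_ne_zero.mpr U.nz) fun e => U.sqfree.ne_zero (by
    rw [e, mul_zero, eq_comm, Int.cast_eq_zero] at hv
    exact hv)
  set Jk := K₅ J
  set X : M2 k₅ := (2 : k₅) • Jk - (t : k₅) • 1
  have hJk : Jk * Jk = (t : k₅) • Jk - 1 := by
    have h := congrArg K₅ hJJ
    simp only [map_add, map_sub, map_mul, map_one, map_zero] at h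
    rw [show K₅ ((t : ℤ_[5]) • J) = (t : k₅) • Jk by
      simp [K₅, Jk, RingHom.mapMatrix_apply, Matrix.map_smul' _ _ _ (map_mul κ₅)]] at h
    linear_combination (norm := module) h
  have hXX : X * X = (u * u) • 1 := by
    have e : u * u = (t : k₅) ^ 2 - 4 := by
      have h := congrArg (Int.cast : ℤ → k₅) U.disc
      push_cast at h
      linear_combination (a : k₅) ^ 2 * hv - h
    rw [e]
    simp only [X, sub_mul, mul_sub, smul_mul_smul_comm, mul_one, one_mul, hJk, smul_sub, smul_smul]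
    module
  have hJkinv : K₅ (J ^ (n - 1)) = (t : k₅) • 1 - Jk := by
    rw [hJinv, map_sub, Int.cast_smul_eq_zsmul, map_zsmul, map_one, ← Int.cast_smul_eq_zsmul k₅]
  have hc : ∀ g ∈ H, r g * X = X * r g := fun g hg => by
    have h := congrArg K₅ (hgJ g 1 (by rw [pow_one]; exact (hgζ g).1 hg))
    simp only [map_mul, pow_one] at h
    simp only [X, mul_sub, sub_mul, mul_smul_comm, smul_mul_assoc, mul_one, one_mul]
    exact congrArg (fun M => (2 : k₅) • M - (t : k₅) • r g) h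
  have ha : ∀ g ∉ H, r g * X = -(X * r g) := fun g hg => by
    have h := congrArg K₅ (hgJ g _ ((hgζ g).2 hg))
    simp only [map_mul, hJkinv, sub_mul, smul_mul_assoc, one_mul] at h
    simp only [X, mul_sub, sub_mul, mul_smul_comm, smul_mul_assoc, mul_one, one_mul]
    rw [show r g * Jk = (t : k₅) • r g - Jk * r g from h]
    module
  have hns : ∀ {s : GQ →* M2 k₅} {Z : M2 k₅}, Z * Z = (u * u) • 1 →
      s τ * Z = -(Z * s τ) → ∀ b : k₅, Z ≠ b • 1 := fun {s Z} hZZ hZ b e => by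
    rw [e, mul_smul_comm, smul_mul_assoc, mul_one, one_mul, eq_neg_iff_add_eq_zero, ← add_smul,
      smul_eq_zero, ← two_mul, mul_eq_zero, or_iff_right two_ne_zero,
      or_iff_left ((Group.isUnit τ).map s).ne_zero] at hZ
    rw [e, hZ, zero_smul, zero_mul, eq_comm, smul_eq_zero] at hZZ
    exact mul_ne_zero hu hu (hZZ.resolve_right one_ne_zero)
  have hX := hns hXX (ha τ hτ)
  obtain ⟨Z, hZZ, -, hcZ, haZ⟩ := FA.CMStructure.exists_sqrt_matrix hE hs hH hopen hfix B
  set X' : M2 k₅ := (a : k₅) • j.mapMatrix Z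
  have hKj : ∀ C : M2 ℤ_[5], K₅ C = j.mapMatrix (C.map PadicInt.Coe.ringHom) := fun C => by
    ext i l
    exact IsScalarTower.algebraMap_apply ℤ_[5] ℚ_[5] k₅ (C i l)
  have hXX' : X' * X' = (u * u) • 1 := by
    rw [show u * u = (a : k₅) * a * (d : k₅) by linear_combination (a : k₅) ^ 2 * hv]
    simp only [X', smul_mul_smul_comm]
    rw [← map_mul, hZZ, RingHom.mapMatrix_apply, Matrix.map_smul' _ _ _ (map_mul j),
      Matrix.map_one _ (map_zero j) (map_one j), map_intCast, smul_smul]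
  have hc' : ∀ g ∈ H, r' g * X' = X' * r' g := fun g hg => by
    show K₅ (B.rep g) * X' = X' * K₅ (B.rep g)
    rw [hKj, mul_smul_comm, smul_mul_assoc, ← map_mul, ← map_mul, hcZ g hg]
  have ha' : ∀ g ∉ H, r' g * X' = -(X' * r' g) := fun g hg => by
    show K₅ (B.rep g) * X' = -(X' * K₅ (B.rep g))
    rw [hKj, mul_smul_comm, smul_mul_assoc, ← map_mul, ← map_mul, haZ g hg, map_neg, smul_neg]
  have hdet : ∀ g, (r' g).det = (r g).det := fun g => by
    show (K₅ _).det = (K₅ _).det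
    rw [(htd _).2, (htd _).2, B.det_rep, B₀.det_rep]
  obtain ⟨ε, hεn, hεmul, hεtr, hεconj⟩ := exists_ratio r r' hu hXX hX hXX'
    (hns hXX' (ha' τ hτ)) hc hc' ha ha' hdet (n := n) fun g _ => by
      show (K₅ _ ^ n).trace = (K₅ _ ^ n).trace
      rw [← map_pow K₅, ← map_pow K₅, (htd _).1, (htd _).1,
        FA.TateHomAll.trace_pow_eq_galois hE₀ hE (fun _ => U.norm) B₀ B g]
  -- the cocycle
  set ζk : k₅ := ((t : k₅) + u) / 2
  have hζk : IsPrimitiveRoot ζk n := U.root _ (hdisc k₅ v hv)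
  have hζkinv : ζk⁻¹ = ((t : k₅) - u) / 2 := inv_eq_of_mul_eq_one_right (by
    have h := congrArg (Int.cast : ℤ → k₅) U.disc
    push_cast at h
    simp only [ζk, u]
    linear_combination (1 / 4 : k₅) * h - ((a : k₅) ^ 2 / 4) * hv)
  haveI : NeZero n := ⟨U.pos⟩
  let φ : k₅ → Qb := fun z => if h : ∃ m, ζk ^ m = z then ζ₀ ^ h.choose else 1
  have hφ : ∀ m, φ (ζk ^ m) = ζ₀ ^ m := fun m => by
    have h : ∃ m', ζk ^ m' = ζk ^ m := ⟨m, rfl⟩
    simp only [φ, dif_pos h]
    have e := h.choose_spec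
    have e : ζk ^ (h.choose % n) = ζk ^ (m % n) := by
      rw [← pow_eq_pow_mod h.choose hζk.pow_eq_one, ← pow_eq_pow_mod m hζk.pow_eq_one]
      exact e
    rw [pow_eq_pow_mod h.choose hζ1, pow_eq_pow_mod m hζ1, hζk.pow_inj
      (Nat.mod_lt _ (NeZero.pos n)) (Nat.mod_lt _ (NeZero.pos n)) e]
  have hexp : ∀ z : k₅, z ^ n = 1 → ∃ m, ζk ^ m = z := fun z hz => by
    obtain ⟨i, -, hi⟩ := hζk.eq_pow_of_pow_eq_one hz
    exact ⟨i, hi⟩
  have hmem : ∀ {g}, g ∉ H → g * τ ∈ H := fun hg =>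
    (Subgroup.mul_mem_iff_of_index_two hH).mpr (iff_of_false hg hτ)
  let E : GQ → k₅ := fun g => if g ∈ H then ε g else ε (g * τ)
  have hEn : ∀ g, E g ^ n = 1 := fun g => by
    by_cases hg : g ∈ H
    · simp only [E, if_pos hg]; exact (hεn g hg).1
    · simp only [E, if_neg hg]; exact (hεn _ (hmem hg)).1
  have hτinv : τ⁻¹ = τ := inv_eq_of_mul_eq_one_right hττ
  have hinv : ∀ z : k₅, z ^ n = 1 → z⁻¹ = z ^ (n - 1) := fun z hz =>
    inv_eq_of_mul_eq_one_right (by rw [← pow_succ', Nat.sub_add_cancel (by omega), hz])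
  have hEmul : ∀ g h, E (g * h) = if g ∈ H then E g * E h else E g * E h ^ (n - 1) := fun g h => by
    rw [← hinv _ (hEn h)]
    have hgh := Subgroup.mul_mem_iff_of_index_two hH (a := g) (b := h)
    by_cases hg : g ∈ H <;> by_cases hh : h ∈ H
    · simp only [E, if_pos hg, if_pos hh, if_pos (hgh.mpr (iff_of_true hg hh))]
      exact hεmul g hg h hh
    · simp only [E, if_pos hg, if_neg hh, if_neg (fun e => hh ((hgh.mp e).mp hg))]
      rw [← hεmul g hg _ (hmem hh), mul_assoc]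
    · simp only [E, if_neg hg, if_pos hh, if_neg (fun e => hg ((hgh.mp e).mpr hh))]
      rw [← hεconj τ hτ h hh, ← hεmul _ (hmem hg) _
        ((Subgroup.normal_of_index_eq_two hH).conj_mem h hh τ), hτinv]
      congr 1
      simp only [← mul_assoc]
      rw [mul_assoc g τ τ, hττ, mul_one]
    · simp only [E, if_neg hg, if_neg hh, if_pos (hgh.mpr (iff_of_false hg hh))]
      rw [← hεconj τ hτ _ (hmem hh), ← hεmul _ (hmem hg) _
        ((Subgroup.normal_of_index_eq_two hH).conj_mem _ (hmem hh) τ)]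
      congr 1
      simp only [mul_assoc]
      rw [mul_inv_cancel τ, mul_one, ← mul_assoc τ τ, hττ, one_mul]
  have hgpow : ∀ (g : GQ) m, g (ζ₀ ^ m) = if g ∈ H then ζ₀ ^ m else ζ₀ ^ ((n - 1) * m) :=
    fun g m => by
    rw [map_pow]
    by_cases hg : g ∈ H
    · rw [if_pos hg, (hgζ g).1 hg]
    · rw [if_neg hg, (hgζ g).2 hg, ← pow_mul]
  let U₅ : Subgroup GQ :=
    H ⊓ ((curveRep 5 (shortInt A₀)).toHomUnits.ker ⊓ (curveRep 5 W).toHomUnits.ker)
  obtain ⟨D, x, hD, hxD, hgx⟩ := exists_radical U.pos (fun g => φ (E g))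
    (fun g => by
      obtain ⟨m, hm⟩ := hexp _ (hEn g)
      show φ (E g) ^ n = 1
      rw [← hm, hφ, ← pow_mul, mul_comm, pow_mul, hζ1, one_pow])
    (fun g h => by
      obtain ⟨m, hm⟩ := hexp _ (hEn g)
      obtain ⟨m', hm'⟩ := hexp _ (hEn h)
      show φ (E (g * h)) = φ (E g) * g (φ (E h))
      rw [hEmul, ← hm, ← hm', hφ, hφ, hgpow]
      by_cases hg : g ∈ H
      · rw [if_pos hg, if_pos hg, ← pow_add, hφ, pow_add]
      · rw [if_neg hg, if_neg hg, ← pow_mul, ← pow_add, hφ, pow_add, mul_comm m'])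
    (U := U₅) (by
      simp only [U₅, Subgroup.coe_inf]
      exact hopen.inter ((FA.OpenImageAll.isOpen_ker_toHomUnits 5).inter
        (FA.OpenImageAll.isOpen_ker_toHomUnits 5)))
    fun g hg => by
      obtain ⟨hgH, hg1, hg2⟩ := hg
      replace hgH : g ∈ H := hgH
      have hone : ∀ {V : WeierstrassCurve ℤ} [(ratCurve V).IsElliptic] (C : TateBasis 5 V),
          curveRep 5 V g = 1 → ∃ y z : ℤ_[5], (C.rep g).trace = 2 + 5 * y ∧
            (C.rep g).det = 1 + 5 * z := fun {V} _ C h1 => by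
        have hdiv : ∀ w : ℤ_[5], PadicInt.toZMod w = 0 → ∃ y, w = 5 * y := fun w hw => by
          rw [← RingHom.mem_ker, PadicInt.ker_toZMod, PadicInt.maximalIdeal_eq_span_p,
            Ideal.mem_span_singleton] at hw
          obtain ⟨y, hy⟩ := hw
          exact ⟨y, by rw [hy]; push_cast; rfl⟩
        have e := FA.PadicImage.rep_map_toZMod C g
        rw [h1] at e
        obtain ⟨y, hy⟩ := hdiv ((C.rep g).trace - 2) (by
          rw [map_sub, AddMonoidHom.map_trace, e, trace_one, Fintype.card_fin, map_ofNat]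
          simp)
        obtain ⟨z, hz⟩ := hdiv ((C.rep g).det - 1) (by
          rw [map_sub, RingHom.map_det, RingHom.mapMatrix_apply, e, det_one, map_one, sub_self])
        exact ⟨y, z, by rw [← hy]; ring, by rw [← hz]; ring⟩
      obtain ⟨y, z, ey, ez⟩ := hone B₀ (congrArg Units.val (MonoidHom.mem_ker.mp hg1))
      obtain ⟨y', z', ey', ez'⟩ := hone B (congrArg Units.val (MonoidHom.mem_ker.mp hg2))
      obtain ⟨s1, p1⟩ := ev_add_mul hu hXX hX (hc g hgH)
      have hε0 := (hεn g hgH).2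
      have e1 : ε g = 1 := by
        refine eq_one_of_near U (hεn g hgH).1 (χ := ev X u (r g)) (y := y) (z := z) (y' := y')
          (z' := z') ?_ ?_
        · rw [← ey, ← ez, ← (htd _).1, ← (htd _).2, ← show r g = K₅ (B₀.rep g) from rfl, ← s1,
            ← p1]
          ring
        · rw [← ey', ← ez', ← (htd _).1, ← (htd _).2, ← show r' g = K₅ (B.rep g) from rfl,
            hεtr g hgH, hdet, ← p1]
          have hee : ε g * (ε g)⁻¹ = 1 := mul_inv_cancel₀ hε0
          linear_combination -(ev X u (r g) * ev X (-u) (r g)) * hee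
      show φ (E g) = 1
      rw [show E g = ζk ^ 0 by simp only [E]; rw [if_pos hgH, e1, pow_zero], hφ, pow_zero]
  -- the twist
  obtain ⟨hΔ, hsc⟩ := hAD D hD
  have hx0 : x ≠ 0 := fun e => by
    rw [e, zero_pow U.pos, eq_comm, Int.cast_eq_zero] at hxD
    exact hD hxD
  set xu : Qbˣ := Units.mk0 x hx0
  obtain ⟨hsx, hsx'⟩ := hsc xu hxD
  haveI := ratCurve_isElliptic_of_Δ hΔ
  obtain ⟨BD⟩ := exists_tateBasis (p := 5) (shortInt (AD D))
  obtain ⟨M, hM⟩ := exists_isMat B₀ BD (scale hsx)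
  obtain ⟨M', hM'⟩ := exists_isMat BD B₀ (scale hsx')
  have hMM : M' * M = 1 := by
    refine (hM.comp hM').unique ?_
    rw [scale_comp hsx hsx' (hself 1 (by simp)) (inv_mul_cancel xu).symm, scale_one]
    exact isMat_id B₀
  have htr : ∀ g, (BD.rep g).trace = (B.rep g).trace := fun g => by
    obtain ⟨m, hm⟩ := hexp _ (hEn g)
    have hgxm : g x = ζ₀ ^ m * x := by rw [hgx]; show φ (E g) * x = _; rw [← hm, hφ]
    have hζm : ((ζ ^ m : Qbˣ) : Qb) ^ n = 1 := by
      rw [Units.val_pow_eq_pow_val, ← pow_mul, mul_comm, pow_mul]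
      simp [ζ, hζ1]
    have hv' : Scales A₀ (AD D) (xu * ζ ^ m) := (hsc _ (by
      rw [Units.val_mul, mul_pow, hζm, mul_one]; exact hxD)).1
    have h := scale_gal hsx hv' g (by simp [xu, ζ, hgxm, mul_comm])
    rw [← scale_comp (hself _ hζm) hsx hv' rfl] at h
    have hN := (hM.comp (isMat_gal BD g)).unique
      (h ▸ ((isMat_gal B₀ g).comp ((isMat_scale_pow hself hζ1 B₀ hJ m).comp hM)))
    have hBD : BD.rep g = M * J ^ m * B₀.rep g * M' := by
      rw [← hN, mul_assoc, mul_eq_one_comm.mp hMM, mul_one]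
    have e : (BD.rep g).trace = (J ^ m * B₀.rep g).trace := by
      rw [hBD, trace_mul_comm, ← mul_assoc, ← mul_assoc, hMM, one_mul]
    rw [e]
    refine (show Function.Injective κ₅ by
      rw [IsScalarTower.algebraMap_eq ℤ_[5] ℚ_[5] k₅]
      exact (algebraMap ℚ_[5] k₅).injective.comp (IsFractionRing.injective ℤ_[5] ℚ_[5])) ?_
    rw [← (htd _).1, ← (htd _).1, map_mul, map_pow]
    show (Jk ^ m * r g).trace = (r' g).trace
    have hJX : Jk * X = X * Jk := by
      simp only [X, mul_sub, sub_mul, mul_smul_comm, smul_mul_assoc, mul_one, one_mul]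
    by_cases hg : g ∈ H
    · rw [hεtr g hg, show ε g = ζk ^ m by rw [hm]; simp only [E, if_pos hg], ← inv_pow, hζkinv]
      have hXn : X * X = (-u * -u) • 1 := by rw [neg_mul_neg, hXX]
      have hev : ∀ (w : k₅), w ≠ 0 → X * X = (w * w) • 1 →
          ∀ l : ℕ, ev X w (Jk ^ l) = (((t : k₅) + w) / 2) ^ l := fun w hw hww l => by
        have h1 : ev X w Jk = ((t : k₅) + w) / 2 := by
          conv_lhs => rw [show Jk = (1 / 2 : k₅) • X + ((t : k₅) / 2) • (1 : M2 k₅) by
            simp only [X]; module]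
          rw [ev_eq hw hww hX]
          ring
        induction l with
        | zero => rw [pow_zero, pow_zero, ev_one hww hX]
        | succ l ih =>
          rw [pow_succ, pow_succ, ev_mul hw hww hX (Commute.pow_left hJX l).eq hJX, h1, ih]
      have hJm := (Commute.pow_left (show Commute Jk X from hJX) m).eq
      have hcm : Jk ^ m * r g * X = X * (Jk ^ m * r g) :=
        ((Commute.pow_left (show Commute Jk X from hJX) m).mul_left
          (show Commute (r g) X from hc g hg)).eq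
      rw [← (ev_add_mul hu hXX hX hcm).1, ev_mul hu hXX hX hJm (hc g hg),
        ev_mul (neg_ne_zero.mpr hu) hXn hX hJm (hc g hg), hev u hu hXX,
        hev (-u) (neg_ne_zero.mpr hu) hXn, ← sub_eq_add_neg]
    · rw [FA.TwistAll.trace_eq_zero_of_anticomm two_ne_zero hu hXX' (ha' g hg),
        FA.TwistAll.trace_eq_zero_of_anticomm two_ne_zero hu hXX]
      rw [mul_assoc, ha g hg, mul_neg, ← mul_assoc,
        (Commute.pow_left (show Commute Jk X from hJX) m).eq, mul_assoc]
  refine ⟨D, hD, (insert 5 ((W.Δ * (shortInt (AD D)).Δ).natAbs.primeFactors)).finite_toSet.subset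
    fun q ⟨hq, hne⟩ => ?_⟩
  by_contra hn
  simp only [Finset.coe_insert, Set.mem_insert_iff, Finset.mem_coe, not_or] at hn
  obtain ⟨g1, g2⟩ := FA.Independence.good_of_not_mem hq hn.2
  obtain ⟨A, hA⟩ := FA.Deform.exists_liesOverPrime hq
  obtain ⟨σ, hσ⟩ := FA.Deform.exists_isFrobeniusAt hq hA
  refine hne (Int.cast_injective (α := ℤ_[5]) ?_)
  rw [← (B.rep_frobenius hq hA hn.1 g1 hσ).1, ← (BD.rep_frobenius hq hA hn.1 g2 hσ).1, htr]

end Main

end FA.ExceptionalUnits

end
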