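import Fermat.Agent.ExceptionalUnits.Maps
import Fermat.Agent.ExceptionalUnits.Chars

/-!
# The units of `ℚ(i)` and `ℚ(√-3)`

What the two fields share: a root `ζ` of `z² - t z + 1` is a primitive `n`th root of unity, the
elements of norm four have `n`th power `2ⁿ`, an `n`th root of unity other than one is not near one
`5`-adically, and the scalings by the powers of `ζ` act on a `5`-adic Tate module.
-/

set_option autoImplicit false
set_option linter.style.haveILetI false

noncomputable section

open Matrix WeierstrassCurve WeierstrassCurve.Affine FA.EC FA.Frob FA.RT FA.RT.Tate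
open FA.AlmostAll (shortInt)
open scoped WeierstrassCurve.Affine

local notation "Qb" => AlgebraicClosure ℚ
local notation "GQ" => AlgebraicClosure ℚ ≃ₐ[ℚ] AlgebraicClosure ℚ
local notation "M2" => Matrix (Fin 2) (Fin 2)

namespace FA.ExceptionalUnits

/-- The arithmetic of a field with `n` units. -/
structure UnitField (d : ℤ) (n : ℕ) (t a : ℤ) : Prop where
  neg : d < 0
  sqfree : Squarefree d
  disc : t ^ 2 - 4 = d * a ^ 2
  nz : a ≠ 0
  pos : n ≠ 0
  half : ∃ h, n = 2 * h
  root : ∀ {K : Type} [Field K] [CharZero K] (z : K),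
    z ^ 2 - (t : K) * z + 1 = 0 → IsPrimitiveRoot z n
  far : ∀ {K : Type} [Field K] [CharZero K] (z : K), z ^ n = 1 →
    z = 1 ∨ ∃ j : ℤ, 1 ≤ j ∧ j ≤ 4 ∧ 2 - z - z⁻¹ = (j : K)
  norm : ∀ (μ κ : ℤ) (v : ℂ), v * v = (d : ℂ) → μ ^ 2 - d * κ ^ 2 = 4 →
    ((μ : ℂ) + κ * v) ^ n = 2 ^ n

/-- The Gaussian field. -/
theorem unitField_four : UnitField (-1) 4 0 2 where
  neg := by norm_num
  sqfree := by rw [← Int.squarefree_natAbs]; exact squarefree_one
  disc := by norm_num
  nz := by norm_num
  pos := by norm_num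
  half := ⟨2, rfl⟩
  root {K} _ _ z h := by
    have h2 : z ^ 2 = -1 := by push_cast at h; linear_combination h
    refine (IsPrimitiveRoot.iff (by norm_num)).mpr ⟨by linear_combination (z ^ 2 - 1) * h2,
      fun l hl hl4 e => ?_⟩
    interval_cases l
    · rw [pow_one] at e; rw [e, one_pow] at h2; norm_num at h2
    · rw [h2] at e; norm_num at e
    · have : z = -1 := by linear_combination -e + z * h2
      rw [this] at h2; norm_num at h2
  far {K} _ _ z h := by
    rcases mul_eq_zero.mp (show (z - 1) * ((z + 1) * (z ^ 2 + 1)) = 0 by linear_combination h) with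
      e | e
    · exact Or.inl (sub_eq_zero.mp e)
    rcases mul_eq_zero.mp e with e | e
    · exact Or.inr ⟨4, by norm_num, le_rfl, by rw [eq_neg_of_add_eq_zero_left e]; norm_num⟩
    · refine Or.inr ⟨2, by norm_num, by norm_num, ?_⟩
      rw [inv_eq_of_mul_eq_one_right (a := z) (b := -z) (by linear_combination -e)]
      push_cast
      ring
  norm μ κ v hv h := by
    push_cast at hv
    have hμ : -2 ≤ μ ∧ μ ≤ 2 := ⟨by nlinarith [sq_nonneg κ], by nlinarith [sq_nonneg κ]⟩
    have hκ : -2 ≤ κ ∧ κ ≤ 2 := ⟨by nlinarith [sq_nonneg μ], by nlinarith [sq_nonneg μ]⟩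
    obtain ⟨h1, h2⟩ := hμ
    obtain ⟨h3, h4⟩ := hκ
    interval_cases μ <;> interval_cases κ <;> first
      | omega
      | (push_cast; linear_combination (16 * v ^ 2 - 16) * hv)
      | (norm_num)

/-- The field of the cube roots of unity. -/
theorem unitField_six : UnitField (-3) 6 1 1 where
  neg := by norm_num
  sqfree := by rw [← Int.squarefree_natAbs]; exact Nat.prime_three.squarefree
  disc := by norm_num
  nz := by norm_num
  pos := by norm_num
  half := ⟨3, rfl⟩
  root {K} _ _ z h := by
    have h2 : z ^ 2 = z - 1 := by push_cast at h; linear_combination h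
    have h3 : z ^ 3 = -1 := by linear_combination (z + 1) * h2
    refine (IsPrimitiveRoot.iff (by norm_num)).mpr ⟨by linear_combination (z ^ 3 - 1) * h3,
      fun l hl hl6 e => ?_⟩
    interval_cases l
    · rw [pow_one] at e; rw [e] at h2; norm_num at h2
    · have : z = 2 := by linear_combination e - h2
      rw [this] at h2; norm_num at h2
    · rw [h3] at e; norm_num at e
    · have : z = -1 := by linear_combination -e + z * h3
      rw [this] at h2; norm_num at h2
    · have : z ^ 2 = -1 := by linear_combination -e + z ^ 2 * h3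
      have hz : z = 0 := by linear_combination this - h2
      rw [hz] at h3; norm_num at h3
  far {K} _ _ z h := by
    rcases mul_eq_zero.mp (show (z - 1) * ((z + 1) * ((z ^ 2 + z + 1) * (z ^ 2 - z + 1))) = 0 by
      linear_combination h) with e | e
    · exact Or.inl (sub_eq_zero.mp e)
    rcases mul_eq_zero.mp e with e | e
    · exact Or.inr ⟨4, by norm_num, le_rfl, by rw [eq_neg_of_add_eq_zero_left e]; norm_num⟩
    rcases mul_eq_zero.mp e with e | e
    · refine Or.inr ⟨3, by norm_num, by norm_num, ?_⟩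
      rw [inv_eq_of_mul_eq_one_right (a := z) (b := -1 - z) (by linear_combination -e)]
      push_cast
      ring
    · refine Or.inr ⟨1, le_rfl, by norm_num, ?_⟩
      rw [inv_eq_of_mul_eq_one_right (a := z) (b := 1 - z) (by linear_combination -e)]
      push_cast
      ring
  norm μ κ v hv h := by
    push_cast at hv
    have hμ : -2 ≤ μ ∧ μ ≤ 2 := ⟨by nlinarith [sq_nonneg κ], by nlinarith [sq_nonneg κ]⟩
    have hκ : -1 ≤ κ ∧ κ ≤ 1 := ⟨by nlinarith [sq_nonneg μ], by nlinarith [sq_nonneg μ]⟩
    obtain ⟨h1, h2⟩ := hμ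
    obtain ⟨h3, h4⟩ := hκ
    interval_cases μ <;> interval_cases κ <;> first
      | omega
      | (push_cast; linear_combination (v ^ 4 + 6 * v ^ 3 + 12 * v ^ 2 + 2 * v - 21) * hv)
      | (push_cast; linear_combination (v ^ 4 - 6 * v ^ 3 + 12 * v ^ 2 - 2 * v - 21) * hv)
      | (norm_num)

/-! ### The relation of the matrix of `ζ` -/

section Rel

variable {R : Type*} [CommRing R] [IsDomain R]

/-- `J² = -1` and `T J = J⁻¹ T`: `J` is no scalar. -/
theorem rel_four (h2 : (2 : R) ≠ 0) {J T : M2 R} (hT : IsUnit T) (hJ : J ^ 2 = -1)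
    (hTJ : T * J = J ^ 3 * T) :
    J * J - (0 : R) • J + 1 = 0 ∧ ∀ a : R, J ≠ a • 1 := by
  refine ⟨by rw [zero_smul, sub_zero, ← sq, hJ, neg_add_cancel], fun a e => ?_⟩
  rw [pow_succ, hJ, neg_one_mul, neg_mul, e, mul_smul_comm, mul_one, smul_mul_assoc, one_mul,
    eq_neg_iff_add_eq_zero, ← add_smul, smul_eq_zero, or_iff_left hT.ne_zero, ← two_mul,
    mul_eq_zero, or_iff_right h2] at hTJ
  rw [e, hTJ, zero_smul, zero_pow two_ne_zero] at hJ
  exact one_ne_zero (neg_eq_zero.mp hJ.symm)

/-- `J³ = -1`, `J ≠ -1` and `T J = J⁻¹ T`: the matrix satisfies `J² - J + 1 = 0`. -/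
theorem rel_six {J T : M2 R} (hT : IsUnit T) (hJ : J ^ 3 = -1)
    (hJ1 : J ≠ -1) (hTJ : T * J = J ^ 5 * T) :
    J * J - (1 : R) • J + 1 = 0 ∧ ∀ a : R, J ≠ a • 1 := by
  have hTJ' : T * J = -(J * J) * T := by
    rw [hTJ, show 5 = 3 + 2 by norm_num, pow_add, hJ, neg_one_mul, sq]
  have hns : ∀ a : R, J ≠ a • 1 := fun a e => by
    have h := hTJ'
    rw [e, smul_mul_smul_comm, one_mul, neg_mul, smul_mul_assoc, mul_smul_comm, mul_one, one_mul,
      eq_neg_iff_add_eq_zero, ← add_smul, smul_eq_zero, or_iff_left hT.ne_zero] at h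
    rcases mul_eq_zero.mp (show a * (1 + a) = 0 by linear_combination h) with h0 | h0
    · rw [e, h0, zero_smul, zero_pow (by norm_num)] at hJ
      exact one_ne_zero (neg_eq_zero.mp hJ.symm)
    · exact hJ1 (by rw [e, eq_neg_of_add_eq_zero_right h0, neg_smul, one_smul])
  refine ⟨?_, hns⟩
  set τ := J.trace
  set δ := J.det
  have h2 : J * J = τ • J - δ • (1 : M2 R) := FA.LocalDef.mul_self_two J
  have h3 : (τ * τ - δ) • J = (τ * δ - 1) • (1 : M2 R) := by
    have h : J * J * J = -1 := by rw [← hJ, pow_succ, sq]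
    rw [h2, sub_mul, smul_mul_assoc, h2, smul_mul_assoc, one_mul] at h
    linear_combination (norm := module) h
  have hδ : τ * τ = δ := by
    by_contra hne
    have e01 := congrFun (congrFun h3 0) 1
    have e10 := congrFun (congrFun h3 1) 0
    have e00 := congrFun (congrFun h3 0) 0
    have e11 := congrFun (congrFun h3 1) 1
    simp [sub_eq_zero, hne] at e01 e10 e00 e11
    refine hns (J 0 0) ?_
    ext i j
    fin_cases i <;> fin_cases j <;> simp [e01, e10]
    exact mul_left_cancel₀ (sub_ne_zero.mpr hne) (e11.trans e00.symm)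
  rw [hδ, sub_self, zero_smul, eq_comm, smul_eq_zero, or_iff_left one_ne_zero, sub_eq_zero] at h3
  have ht : τ = -(τ * τ - 2 * δ) := by
    have hu : ∃ S : M2 R, S * T = 1 := ⟨↑hT.unit⁻¹, hT.val_inv_mul⟩
    obtain ⟨S, hS⟩ := hu
    have e := congrArg (fun M => (S * M).trace) hTJ'
    simp only [← mul_assoc, hS, one_mul] at e
    rw [mul_assoc, trace_mul_comm, mul_assoc, show T * S = 1 from mul_eq_one_comm.mp hS, mul_one,
      trace_neg, h2, trace_sub, trace_smul, trace_smul, trace_one, Fintype.card_fin] at e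
    simpa [smul_eq_mul, mul_comm] using e
  have hτ1 : τ = 1 := by
    have h0 : τ ≠ 0 := fun e => by rw [e, zero_mul] at h3; exact zero_ne_one h3
    exact mul_left_cancel₀ h0 (by rw [mul_one]; linear_combination -ht + 2 * hδ)
  rw [hτ1, one_mul] at h3
  rw [h2, hτ1, h3]
  simp

end Rel

end FA.ExceptionalUnits

end
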